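import Fermat.Agent.Kazhdan.Main
import Fermat.Agent.Amenable.Folner
import Mathlib.Analysis.Normed.Lp.lpSpace
import Mathlib.Analysis.InnerProductSpace.l2Space
import Mathlib.Analysis.InnerProductSpace.PiL2
import Mathlib.LinearAlgebra.Matrix.SpecialLinearGroup

/-!
# Expanders, and amenable groups without property (T)

Finite transitive quotients of a group with property (T) have a uniform spectral gap; the Følner
sets of an infinite amenable group give almost invariant vectors in `ℓ²` without invariant ones.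
-/

set_option autoImplicit false

noncomputable section

namespace FA.Kazhdan

section L2

variable {G : Type*} [Group G]

theorem memℓp_translate (g : G) (f : lp (fun _ : G => ℂ) 2) :
    Memℓp (fun x => f (g⁻¹ * x)) 2 := by
  refine memℓp_gen ?_
  exact (Equiv.mulLeft g⁻¹).summable_iff.2 ((lp.memℓp f).summable (by norm_num))

/-- Left translation on `ℓ² G`. -/
def translate (g : G) : lp (fun _ : G => ℂ) 2 ≃ₗᵢ[ℂ] lp (fun _ : G => ℂ) 2 where
  toFun f := ⟨fun x => f (g⁻¹ * x), memℓp_translate g f⟩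
  map_add' _ _ := rfl
  map_smul' _ _ := rfl
  invFun f := ⟨fun x => f (g * x),
    show Memℓp (fun x => f (g * x)) 2 by simpa using memℓp_translate g⁻¹ f⟩
  left_inv f := by ext x; simp
  right_inv f := by ext x; simp
  norm_map' f := by
    rw [lp.norm_eq_tsum_rpow (by norm_num), lp.norm_eq_tsum_rpow (by norm_num)]
    congr 1
    exact (Equiv.mulLeft g⁻¹).tsum_eq fun x => ‖f x‖ ^ (2 : ENNReal).toReal

theorem translate_apply (g : G) (f : lp (fun _ : G => ℂ) 2) (x : G) :
    translate g f x = f (g⁻¹ * x) := rfl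

/-- The regular representation. -/
def regular (G : Type*) [Group G] :
    G →* (lp (fun _ : G => ℂ) 2 ≃ₗᵢ[ℂ] lp (fun _ : G => ℂ) 2) where
  toFun := translate
  map_one' := by ext f x; simp [translate_apply]
  map_mul' g h := by ext f x; simp [translate_apply, mul_assoc]

theorem regular_apply (g : G) (f : lp (fun _ : G => ℂ) 2) (x : G) :
    regular G g f x = f (g⁻¹ * x) := rfl

theorem eq_zero_of_fixed [Infinite G] {w : lp (fun _ : G => ℂ) 2} (h : ∀ g, regular G g w = w) :
    w = 0 := by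
  have hc : ∀ x, w x = w 1 := fun x => by
    conv_lhs => rw [← h x]
    rw [regular_apply, inv_mul_cancel]
  have hs := (lp.memℓp w).summable (by norm_num)
  simp only [hc, summable_const_iff] at hs
  ext x
  rw [hc, lp.coeFn_zero, Pi.zero_apply]
  exact norm_eq_zero.1 (by simpa using hs)

theorem sum_single_apply [DecidableEq G] (F : Finset G) (c : ℂ) (x : G) :
    (∑ y ∈ F, lp.single 2 y c : lp (fun _ : G => ℂ) 2) x = if x ∈ F then c else 0 := by
  rw [lp.coeFn_sum, Finset.sum_apply]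
  simp [lp.single_apply, Pi.single_apply]

theorem norm_sum_single [DecidableEq G] (F : Finset G) (f : G → ℂ) :
    ‖(∑ y ∈ F, lp.single 2 y (f y) : lp (fun _ : G => ℂ) 2)‖ ^ 2 = ∑ y ∈ F, ‖f y‖ ^ 2 := by
  have := lp.norm_sum_single (E := fun _ : G => ℂ) (p := 2) (by norm_num) f F
  rw [show (2 : ENNReal).toReal = ((2 : ℕ) : ℝ) by norm_num] at this
  simp only [Real.rpow_natCast] at this
  exact this

/-- **Følner sets give almost invariant unit vectors in `ℓ²`.** -/
theorem exists_almost_invariant (hG : FA.Amenable.IsAmenable G) (S : Finset G) {ε : ℝ}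
    (hε : 0 < ε) : ∃ v : lp (fun _ : G => ℂ) 2, ‖v‖ = 1 ∧ ∀ s ∈ S, ‖regular G s v - v‖ < ε := by
  classical
  obtain ⟨F, hF, hFS⟩ := (FA.Amenable.isAmenable_iff_isFolner.1 hG) S (ε ^ 2 / 4) (by positivity)
  have hc : (0 : ℝ) < F.card := by exact_mod_cast hF.card_pos
  set c : ℂ := (Real.sqrt F.card)⁻¹
  have hcn : ‖c‖ ^ 2 = (F.card : ℝ)⁻¹ := by
    simp [c, inv_pow, Real.sq_sqrt hc.le]
  refine ⟨∑ y ∈ F, lp.single 2 y c, ?_, fun s hs => ?_⟩
  · refine (pow_eq_one_iff_of_nonneg (norm_nonneg _) two_ne_zero).1 ?_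
    rw [norm_sum_single F fun _ => c, Finset.sum_const, hcn, nsmul_eq_mul, mul_inv_cancel₀ hc.ne']
  · set F' := F.image (s * ·)
    have e : regular G s (∑ y ∈ F, lp.single 2 y c) - ∑ y ∈ F, lp.single 2 y c =
        ∑ y ∈ (F' \ F) ∪ (F \ F'), lp.single 2 y (if y ∈ F' then c else -c) := by
      ext x
      rw [lp.coeFn_sub, Pi.sub_apply, regular_apply, sum_single_apply, sum_single_apply,
        lp.coeFn_sum, Finset.sum_apply]
      simp only [lp.single_apply, Pi.single_apply]
      rw [Finset.sum_ite_eq]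
      have hx : x ∈ F' ↔ s⁻¹ * x ∈ F := by
        simp only [F', Finset.mem_image]
        exact ⟨fun ⟨y, hy, e⟩ => by simpa [← e] using hy, fun h => ⟨_, h, mul_inv_cancel_left s x⟩⟩
      simp only [← hx, Finset.mem_union, Finset.mem_sdiff]
      by_cases h1 : x ∈ F' <;> by_cases h2 : x ∈ F <;> simp [h1, h2]
    have hn : ‖regular G s (∑ y ∈ F, lp.single 2 y c) - ∑ y ∈ F, lp.single 2 y c‖ ^ 2 < ε ^ 2 := by
      rw [e, norm_sum_single _ fun y => if y ∈ F' then c else -c]
      have hn : ∀ y, ‖if y ∈ F' then c else -c‖ ^ 2 = (F.card : ℝ)⁻¹ := fun y => by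
        split_ifs <;> simp [hcn]
      simp only [hn, Finset.sum_const, nsmul_eq_mul]
      have hcard : F'.card = F.card :=
        Finset.card_image_of_injective _ (mul_right_injective s)
      rw [Finset.card_union_of_disjoint (disjoint_sdiff_sdiff), Finset.card_sdiff_comm hcard.symm,
        ← div_eq_mul_inv, div_lt_iff₀ hc]
      push_cast
      nlinarith [hFS s hs, mul_pos (pow_pos hε 2) hc]
    exact lt_of_pow_lt_pow_left₀ 2 hε.le hn

/-- **An amenable group with property (T) is finite.** -/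
theorem finite_of_amenable {G : Type*} [Group G] (hG : FA.Amenable.IsAmenable G) {S : Finset G}
    {ε : ℝ} (hε : 0 < ε)
    (hT : ∀ v : lp (fun _ : G => ℂ) 2, ‖v‖ = 1 → (∀ s ∈ S, ‖regular G s v - v‖ < ε) →
      ∃ w, w ≠ 0 ∧ ∀ g, regular G g w = w) : Finite G := by
  by_contra h
  have : Infinite G := not_finite_iff_infinite.1 h
  obtain ⟨v, hv, hS⟩ := exists_almost_invariant hG S hε
  obtain ⟨w, hw, hfix⟩ := hT v hv hS
  exact hw (eq_zero_of_fixed hfix)

end L2

/-- The permutation representation on `ℓ²` of a finite set. -/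
def permRep (G X : Type*) [Group G] [MulAction G X] [Fintype X] :
    G →* (EuclideanSpace ℂ X ≃ₗᵢ[ℂ] EuclideanSpace ℂ X) where
  toFun g := LinearIsometryEquiv.piLpCongrLeft 2 ℂ ℂ (MulAction.toPerm g)
  map_one' := by
    ext v x
    simp [LinearIsometryEquiv.piLpCongrLeft_apply, Equiv.piCongrLeft'_apply]
  map_mul' g h := by
    ext v x
    simp [LinearIsometryEquiv.piLpCongrLeft_apply, Equiv.piCongrLeft'_apply, mul_smul]

theorem permRep_apply {G X : Type*} [Group G] [MulAction G X] [Fintype X] (g : G)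
    (v : EuclideanSpace ℂ X) (x : X) : permRep G X g v x = v (g⁻¹ • x) := by
  simp [permRep, LinearIsometryEquiv.piLpCongrLeft_apply, Equiv.piCongrLeft'_apply]

open Matrix in
/-- **A uniform spectral gap.** -/
theorem exists_gap.{u} {n : ℕ} (hn : 3 ≤ n) : ∃ c : ℝ, 0 < c ∧
    ∀ (X : Type u) [Fintype X] [MulAction (SpecialLinearGroup (Fin n) ℤ) X]
      [MulAction.IsPretransitive (SpecialLinearGroup (Fin n) ℤ) X] (f : X → ℝ), ∑ x, f x = 0 →
      c * ∑ x, f x ^ 2 ≤ ∑ s ∈ generators n, ∑ x, (f (s • x) - f x) ^ 2 := by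
  obtain ⟨ε, hε, hT⟩ := exists_kazhdan.{u} hn
  refine ⟨ε ^ 2, by positivity, fun X _ _ _ f hf => ?_⟩
  by_contra hcon
  rw [not_le] at hcon
  have hQ : 0 ≤ ∑ s ∈ generators n, ∑ x, (f (s • x) - f x) ^ 2 := by positivity
  have hA : 0 < ∑ x, f x ^ 2 := by nlinarith [sq_nonneg ε]
  set r := Real.sqrt (∑ x, f x ^ 2)
  have hr : 0 < r := Real.sqrt_pos.2 hA
  let v : EuclideanSpace ℂ X := WithLp.toLp 2 fun x => ((f x / r : ℝ) : ℂ)
  have hnorm : ∀ a : X → ℝ, ‖(WithLp.toLp 2 fun x => ((a x : ℝ) : ℂ) : EuclideanSpace ℂ X)‖ ^ 2 =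
      ∑ x, a x ^ 2 := fun a => by
    rw [EuclideanSpace.norm_sq_eq]
    simp [sq_abs]
  have hv : ‖v‖ = 1 := by
    refine (pow_eq_one_iff_of_nonneg (norm_nonneg _) two_ne_zero).1 ?_
    rw [hnorm]
    simp only [div_pow, ← Finset.sum_div, r, Real.sq_sqrt hA.le, div_self hA.ne']
  have hmove : ∀ s ∈ generators n, ‖permRep _ X s v - v‖ ≤ ε := fun s hs => by
    refine le_of_pow_le_pow_left₀ two_ne_zero hε.le ?_
    have e : permRep _ X s v - v =
        WithLp.toLp 2 fun x => (((f (s⁻¹ • x) - f x) / r : ℝ) : ℂ) := by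
      ext x
      simp [v, permRep_apply, sub_div]
    rw [e, hnorm]
    simp only [div_pow, ← Finset.sum_div, r, Real.sq_sqrt hA.le]
    rw [div_le_iff₀ hA, ← Equiv.sum_comp (MulAction.toPerm s) fun x => (f (s⁻¹ • x) - f x) ^ 2]
    refine le_trans ?_ hcon.le
    refine le_trans (le_of_eq (Finset.sum_congr rfl fun x _ => ?_))
      (Finset.single_le_sum (f := fun s => ∑ x, (f (s • x) - f x) ^ 2)
        (fun s _ => Finset.sum_nonneg fun x _ => sq_nonneg _) hs)
    simp only [MulAction.toPerm_apply, inv_smul_smul]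
    ring
  obtain ⟨w, hw, hwv, hℓ⟩ := hT (EuclideanSpace ℂ X) (permRep _ X) v hv hmove
  have hconst : ∀ x y, w x = w y := fun x y => by
    obtain ⟨g, rfl⟩ := MulAction.exists_smul_eq (SpecialLinearGroup (Fin n) ℤ) x y
    conv_rhs => rw [← hw g]
    rw [permRep_apply, inv_smul_smul]
  let ℓ : EuclideanSpace ℂ X →L[ℂ] ℂ := ∑ x, PiLp.proj 2 (fun _ : X => ℂ) x
  have hℓv : ∀ g : SpecialLinearGroup (Fin n) ℤ, ℓ (permRep _ X g v) = 0 := fun g => by
    simp only [ℓ, _root_.map_sum, ContinuousLinearMap.sum_apply, PiLp.proj_apply, permRep_apply]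
    rw [← Equiv.sum_comp (MulAction.toPerm g) fun x => v (g⁻¹ • x)]
    simp only [MulAction.toPerm_apply, inv_smul_smul, v, ← Complex.ofReal_sum, ← Finset.sum_div,
      hf, zero_div, Complex.ofReal_zero]
  have hw0 : w = 0 := by
    ext x
    have h := hℓ ℓ hℓv
    simp only [ℓ, ContinuousLinearMap.sum_apply, PiLp.proj_apply] at h
    rw [Finset.sum_congr rfl fun y _ => hconst y x, Finset.sum_const, nsmul_eq_mul,
      mul_eq_zero, Nat.cast_eq_zero, Finset.card_eq_zero] at h
    rcases h with h | h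
    · exact absurd (Finset.mem_univ x) (by rw [h]; simp)
    · simpa using h
  rw [hw0, zero_sub, norm_neg, hv] at hwv
  norm_num at hwv

end FA.Kazhdan

end
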