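import Fermat.Agent.Kazhdan.Torus
import Mathlib.Tactic.FinCases

/-!
# Relative property (T)

Shears push the mass of the open quadrants onto two disjoint halves of them and the axes into the
quadrants, so a vector almost fixed by the shears and the generators of `ℤ²` is almost fixed by all
of `ℤ²` (Burger).
-/

set_option autoImplicit false

noncomputable section

open UnitAddTorus

namespace FA.Kazhdan

/-- The clamped multiple `min 1 (max 0 (k z))`. -/
def clamp (k z : ℝ) : ℝ := min 1 (max 0 (k * z))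

theorem clamp_nonneg (k z : ℝ) : 0 ≤ clamp k z := le_min zero_le_one (le_max_left _ _)

theorem clamp_le_one (k z : ℝ) : clamp k z ≤ 1 := min_le_left _ _

theorem abs_clamp_le (k z : ℝ) : |clamp k z| ≤ 1 :=
  abs_le.2 ⟨by linarith [clamp_nonneg k z], clamp_le_one k z⟩

theorem clamp_eq_zero {k z : ℝ} (hk : 0 ≤ k) (hz : z ≤ 0) : clamp k z = 0 := by
  rw [clamp, max_eq_left (mul_nonpos_of_nonneg_of_nonpos hk hz), min_eq_right zero_le_one]

theorem clamp_mono {k : ℝ} (hk : 0 ≤ k) {z z' : ℝ} (h : z ≤ z') : clamp k z ≤ clamp k z' :=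
  min_le_min le_rfl (max_le_max le_rfl (mul_le_mul_of_nonneg_left h hk))

/-- **The two shears send a quadrant into disjoint parts of itself.** -/
theorem quadrant_le {k sx sy cx cy : ℝ} (hk : 0 ≤ k) (hcx : cx ≤ 1) (hcy : cy ≤ 1) :
    clamp k (sy * (sx * cy - cx * sy)) + clamp k (sx * (sy * cx - cy * sx)) ≤
      clamp k (sx * sy) + 2 * ((1 - cx) + (1 - cy)) := by
  by_cases h : 0 ≤ cx ∧ 0 ≤ cy
  · obtain ⟨hx, hy⟩ := h
    have e : ∀ {P a c w : ℝ}, 0 < w → w = P * a - c → 0 ≤ c → 0 ≤ a → a ≤ 1 → w ≤ P :=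
      fun {P a c w} hw e hc ha ha1 => by
        rcases le_or_gt P 0 with hP | hP
        · linarith [mul_nonpos_of_nonpos_of_nonneg hP ha]
        · linarith [mul_le_of_le_one_right hP.le ha1]
    set u := sy * (sx * cy - cx * sy) with hu
    set w := sx * (sy * cx - cy * sx) with hw
    have h0 := clamp_nonneg k (sx * sy)
    rcases le_or_gt u 0 with hu0 | hu0
    · rw [clamp_eq_zero hk hu0]
      rcases le_or_gt w 0 with hw0 | hw0
      · rw [clamp_eq_zero hk hw0]
        linarith
      · have := clamp_mono hk (e hw0 (show w = sx * sy * cx - cy * (sx * sx) by rw [hw]; ring)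
          (mul_nonneg hy (mul_self_nonneg sx)) hx hcx)
        linarith
    · rcases le_or_gt w 0 with hw0 | hw0
      · rw [clamp_eq_zero hk hw0]
        have := clamp_mono hk (e hu0 (show u = sx * sy * cy - cx * (sy * sy) by rw [hu]; ring)
          (mul_nonneg hx (mul_self_nonneg sy)) hy hcy)
        linarith
      · exfalso
        have h1 : cx * (sy * sy) < sx * sy * cy := by rw [hu] at hu0; linarith
        have h2 : cy * (sx * sx) < sx * sy * cx := by rw [hw] at hw0; linarith
        have := mul_lt_mul'' h1 h2 (mul_nonneg hx (mul_self_nonneg sy))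
          (mul_nonneg hy (mul_self_nonneg sx))
        linarith
  · have hc : cx < 0 ∨ cy < 0 := by
      by_contra hc
      push Not at hc
      exact h hc
    linarith [clamp_le_one k (sy * (sx * cy - cx * sy)), clamp_le_one k (sx * (sy * cx - cy * sx)),
      clamp_nonneg k (sx * sy), hc.elim (fun h => (by linarith : (1 : ℝ) ≤ (1 - cx) + (1 - cy)))
        (fun h => (by linarith : (1 : ℝ) ≤ (1 - cx) + (1 - cy)))]

theorem clamp_abs (k z : ℝ) :
    clamp k |z| ≤ clamp k z + clamp k (-z) := by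
  rcases abs_choice z with h | h <;> rw [h]
  · linarith [clamp_nonneg k (-z)]
  · linarith [clamp_nonneg k z]

theorem clamp_add_le {k a b : ℝ} (hk : 0 ≤ k) (ha : 0 ≤ a) (hb : 0 ≤ b) :
    clamp k (a + b) ≤ clamp k a + clamp k b := by
  have ha' : 0 ≤ k * a := mul_nonneg hk ha
  have hb' : 0 ≤ k * b := mul_nonneg hk hb
  simp only [clamp, mul_add, max_eq_right ha', max_eq_right hb',
    max_eq_right (add_nonneg ha' hb')]
  rcases le_total (k * a) 1 with h1 | h1 <;> rcases le_total (k * b) 1 with h2 | h2 <;>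
    simp only [min_eq_right, min_eq_left, h1, h2] <;>
    linarith [min_le_left (1 : ℝ) (k * a + k * b), min_le_right (1 : ℝ) (k * a + k * b)]

/-- **The axes go into the quadrants.** -/
theorem axis_le {k sx sy cx cy : ℝ} (hk : 0 ≤ k) (hcx : cx ≤ 1) (hcy : cy ≤ 1) :
    clamp k (sx * sx) ≤ (clamp (2 * k) (sx * (sy * cx + cy * sx)) +
      clamp (2 * k) (-(sx * (sy * cx + cy * sx)))) +
      (clamp (2 * k) (sx * sy) + clamp (2 * k) (-(sx * sy))) + 2 * ((1 - cx) + (1 - cy)) := by
  have h2 : 0 ≤ 2 * k := by linarith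
  set z := sx * (sy * cx + cy * sx) with hz
  have hn := And.intro (clamp_nonneg (2 * k) z) (clamp_nonneg (2 * k) (-z))
  have hn' := And.intro (clamp_nonneg (2 * k) (sx * sy)) (clamp_nonneg (2 * k) (-(sx * sy)))
  by_cases h : 1 / 2 ≤ cy ∧ 0 ≤ cx
  · have hle : clamp k (sx * sx) ≤ clamp (2 * k) (|z| + |sx * sy|) := by
      refine min_le_min le_rfl (max_le_max le_rfl ?_)
      have h3 : sx * sx * cy ≤ |z| + |sx * sy| := by
        have : sx * sx * cy = z - sx * sy * cx := by rw [hz]; ring
        rw [this]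
        refine (le_abs_self _).trans ((abs_sub _ _).trans (add_le_add le_rfl ?_))
        rw [abs_mul, abs_of_nonneg h.2]
        exact mul_le_of_le_one_right (abs_nonneg _) hcx
      have h4 := mul_le_mul_of_nonneg_left h.1 (mul_self_nonneg sx)
      nlinarith [mul_le_mul_of_nonneg_left (h4.trans h3) h2]
    linarith [clamp_add_le h2 (abs_nonneg z) (abs_nonneg (sx * sy)), clamp_abs (2 * k) z,
      clamp_abs (2 * k) (sx * sy)]
  · have hc : cy < 1 / 2 ∨ cx < 0 := by
      by_contra hc
      push Not at hc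
      exact h hc
    rcases hc with hc | hc <;> linarith [clamp_le_one k (sx * sx)]

/-- The sine of a coordinate. -/
def sn (i : Fin 2) : C(T2, ℝ) :=
  ⟨fun x => (fourier 1 (x i)).im,
    Complex.continuous_im.comp ((fourier 1).continuous.comp (continuous_apply i))⟩

/-- The cosine of a coordinate. -/
def cs (i : Fin 2) : C(T2, ℝ) :=
  ⟨fun x => (fourier 1 (x i)).re,
    Complex.continuous_re.comp ((fourier 1).continuous.comp (continuous_apply i))⟩

theorem cs_le_one (i : Fin 2) (x : T2) : cs i x ≤ 1 :=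
  (Complex.re_le_norm _).trans (by simp [fourier_apply])

/-- `w = (1 - cos x) + (1 - cos y)`. -/
def near : C(T2, ℝ) := ⟨fun x => (1 - cs 0 x) + (1 - cs 1 x), by fun_prop⟩

/-- The quadrant function. -/
def quad (k ε : ℝ) : C(T2, ℝ) :=
  ⟨fun x => clamp k (ε * (sn 0 x * sn 1 x)), by unfold clamp; fun_prop⟩

/-- The axis function. -/
def axis (k : ℝ) (i : Fin 2) : C(T2, ℝ) :=
  ⟨fun x => clamp k (sn i x * sn i x), by unfold clamp; fun_prop⟩

/-- The dual shear in the second coordinate. -/
def shearX (t : ℤ) : C(T2, T2) := ⟨fun x => ![x 0, x 1 - t • x 0], by fun_prop⟩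

/-- The dual shear in the first coordinate. -/
def shearY (t : ℤ) : C(T2, T2) := ⟨fun x => ![x 0 - t • x 1, x 1], by fun_prop⟩

theorem mFourier_apply_two (q : Fin 2 → ℤ) (x : T2) :
    mFourier q x = fourier (q 0) (x 0) * fourier (q 1) (x 1) := by
  simp [mFourier, Fin.prod_univ_two]

theorem mFourier_comp_shearX (t : ℤ) (q : Fin 2 → ℤ) :
    (mFourier q).comp (shearX t) = mFourier ![q 0 - t * q 1, q 1] := by
  ext x
  simp [shearX, mFourier_apply_two, fourier_apply, mul_smul,
    AddCircle.toCircle_add, AddCircle.toCircle_neg, sub_eq_add_neg, smul_comm t]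
  ring

theorem mFourier_comp_shearY (t : ℤ) (q : Fin 2 → ℤ) :
    (mFourier q).comp (shearY t) = mFourier ![q 0, q 1 - t * q 0] := by
  ext x
  simp [shearY, mFourier_apply_two, fourier_apply, mul_smul,
    AddCircle.toCircle_add, AddCircle.toCircle_neg, sub_eq_add_neg, smul_comm t]
  ring

variable {H : Type*} [NormedAddCommGroup H] [InnerProductSpace ℂ H]
  {U : (Fin 2 → ℤ) → H ≃ₗᵢ[ℂ] H} {v : H}

/-- The hypotheses: `v` is a unit vector moved at most `ε` by the generators and by four operators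
acting on `ℤ²` as shears. -/
structure AlmostFixed (U : (Fin 2 → ℤ) → H ≃ₗᵢ[ℂ] H) (v : H) (ε : ℝ) : Prop where
  /-- an action -/
  action : IsAction U
  /-- a unit vector -/
  norm_eq : ‖v‖ = 1
  /-- the generators -/
  gens : ∀ i, ‖U (Pi.single i 1) v - v‖ ≤ ε
  /-- the upper shears -/
  upper : ∀ t : ℤ, t = 1 ∨ t = -1 → ∃ g : H ≃ₗᵢ[ℂ] H, ‖g v - v‖ ≤ ε ∧
    ∀ q x, U q (g x) = g (U ![q 0 - t * q 1, q 1] x)
  /-- the lower shears -/
  lower : ∀ t : ℤ, t = 1 ∨ t = -1 → ∃ g : H ≃ₗᵢ[ℂ] H, ‖g v - v‖ ≤ ε ∧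
    ∀ q x, U q (g x) = g (U ![q 0, q 1 - t * q 0] x)

variable {ε : ℝ}

theorem mass_near_le (h : AlmostFixed U v ε) : mass h.action v near ≤ ε ^ 2 := by
  have hh : ∀ i, (∀ f : C(T2, ℝ), (∀ x, f x = 2 - 2 * cs i x) → mass h.action v f ≤ ε ^ 2) :=
    fun i f hf => by
      rw [mass_cos h.action h.norm_eq (Pi.single i 1) f fun x => by
        rw [hf, mFourier_single]; rfl]
      exact pow_le_pow_left₀ (norm_nonneg _) (h.gens i) 2
  let d : Fin 2 → C(T2, ℝ) := fun i => ⟨fun x => 2 - 2 * cs i x, by fun_prop⟩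
  have e : near = (1 / 2 : ℝ) • d 0 + (1 / 2 : ℝ) • d 1 := by
    ext x
    simp [near, d]
    ring
  rw [e, mass_add, mass_smul, mass_smul]
  linarith [hh 0 (d 0) fun _ => rfl, hh 1 (d 1) fun _ => rfl]

theorem mass_shift_le (h : AlmostFixed U v ε) {t : ℤ} (ht : t = 1 ∨ t = -1) (f : C(T2, ℝ))
    (hf : ∀ x, |f x| ≤ 1) :
    |mass h.action v (f.comp (shearX t)) - mass h.action v f| ≤ 2 * ε ∧
      |mass h.action v (f.comp (shearY t)) - mass h.action v f| ≤ 2 * ε := by
  constructor
  · obtain ⟨g, hg, hc⟩ := h.upper t ht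
    rw [← mass_comp h.action g (shearX t) (fun q => ⟨_, mFourier_comp_shearX t q, hc q⟩)]
    refine (abs_mass_sub_le h.action (by simp [h.norm_eq]) h.norm_eq f hf).trans ?_
    linarith
  · obtain ⟨g, hg, hc⟩ := h.lower t ht
    rw [← mass_comp h.action g (shearY t) (fun q => ⟨_, mFourier_comp_shearY t q, hc q⟩)]
    refine (abs_mass_sub_le h.action (by simp [h.norm_eq]) h.norm_eq f hf).trans ?_
    linarith

/-- **A quadrant carries little mass.** -/
theorem mass_quad_le (h : AlmostFixed U v ε) {k : ℝ} (hk : 0 ≤ k) {s : ℤ}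
    (hs : s = 1 ∨ s = -1) : mass h.action v (quad k s) ≤ 4 * ε + 2 * ε ^ 2 := by
  have hb : ∀ x, |quad k s x| ≤ 1 := fun x => abs_clamp_le _ _
  have h1 := abs_le.1 (mass_shift_le h hs (quad k s) hb).1
  have h2 := abs_le.1 (mass_shift_le h hs (quad k s) hb).2
  have hpt : ∀ x, ((quad k s).comp (shearY s) + (quad k s).comp (shearX s)) x ≤
      (quad k s + (2 : ℝ) • near) x := by
    intro x
    have e := quadrant_le (sx := sn 0 x) (sy := (s : ℝ) * sn 1 x) hk (cs_le_one 0 x) (cs_le_one 1 x)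
    rcases hs with rfl | rfl <;>
      simp [quad, shearX, shearY, near, sn, cs, sub_eq_add_neg, AddCircle.toCircle_add,
        AddCircle.toCircle_neg, Complex.mul_im] at e ⊢ <;>
      ring_nf at e ⊢ <;> linarith
  have h3 := mass_mono h.action v hpt
  rw [mass_add, mass_add, mass_smul] at h3
  linarith [mass_near_le h]

/-- **An axis carries little mass.** -/
theorem mass_axis_le (h : AlmostFixed U v ε) {k : ℝ} (hk : 0 ≤ k) (i : Fin 2) :
    mass h.action v (axis k i) ≤ 20 * ε + 10 * ε ^ 2 := by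
  have h2 : 0 ≤ 2 * k := by linarith
  have q1 := mass_quad_le h h2 (s := 1) (Or.inl rfl)
  have q2 := mass_quad_le h h2 (s := -1) (Or.inr rfl)
  have hb : ∀ s : ℤ, ∀ x, |quad (2 * k) s x| ≤ 1 := fun s x => abs_clamp_le _ _
  have s1 := mass_shift_le h (t := -1) (Or.inr rfl) (quad (2 * k) ((1 : ℤ) : ℝ)) (hb 1)
  have s2 := mass_shift_le h (t := -1) (Or.inr rfl) (quad (2 * k) ((-1 : ℤ) : ℝ)) (hb (-1))
  have hn := mass_near_le h
  set σ := if i = 0 then shearX (-1) else shearY (-1) with hσ
  have hpt : ∀ x, axis k i x ≤ (((quad (2 * k) ((1 : ℤ) : ℝ)).comp σ +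
      (quad (2 * k) ((-1 : ℤ) : ℝ)).comp σ) + (quad (2 * k) ((1 : ℤ) : ℝ) +
        quad (2 * k) ((-1 : ℤ) : ℝ)) + (2 : ℝ) • near) x := by
    intro x
    have e0 := axis_le (sx := sn 0 x) (sy := sn 1 x) hk (cs_le_one 0 x) (cs_le_one 1 x)
    have e1 := axis_le (sx := sn 1 x) (sy := sn 0 x) hk (cs_le_one 1 x) (cs_le_one 0 x)
    fin_cases i <;>
      simp [σ, quad, axis, shearX, shearY, near, sn, cs, AddCircle.toCircle_add,
        Complex.mul_im] at e0 e1 ⊢ <;>
      ring_nf at e0 e1 ⊢ <;> linarith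
  have h3 := mass_mono h.action v hpt
  rw [mass_add, mass_add, mass_add, mass_add, mass_smul] at h3
  fin_cases i <;> simp only [σ, Fin.zero_eta, Fin.mk_one, if_true,
    if_neg (by decide : ¬ (1 : Fin 2) = 0)] at h3 ⊢ <;>
    linarith [(abs_le.1 s1.1).2, (abs_le.1 s1.2).2, (abs_le.1 s2.1).2, (abs_le.1 s2.2).2]

/-- **Relative property (T)**: all translations move `v` little. -/
theorem norm_sub_sq_le (h : AlmostFixed U v ε) (q : Fin 2 → ℤ) :
    ‖U q v - v‖ ^ 2 ≤ 160 * ε + 84 * ε ^ 2 := by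
  let d : C(T2, ℝ) := ⟨fun x => 2 - 2 * (mFourier q x).re, by fun_prop⟩
  have hd4 : ∀ x, d x ≤ 4 := fun x => by
    have := (mFourier q).norm_coe_le_norm x
    rw [mFourier_norm] at this
    have := neg_le_of_abs_le ((Complex.abs_re_le_norm _).trans this)
    simp only [d, ContinuousMap.coe_mk]
    linarith
  refine le_of_forall_pos_le_add fun η hη => ?_
  obtain ⟨k, hk, hkd⟩ : ∃ k : ℝ, 0 ≤ k ∧
      ∀ x, η ≤ d x → near x ≤ 1 → 1 ≤ k * (sn 0 x * sn 0 x + sn 1 x * sn 1 x) / 2 := by
    let K : Set T2 := {x | η ≤ d x ∧ near x ≤ 1}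
    have hK : IsCompact K := ((isClosed_le continuous_const d.continuous).inter
      (isClosed_le near.continuous continuous_const)).isCompact
    rcases K.eq_empty_or_nonempty with h0 | hne
    · exact ⟨0, le_rfl, fun x h1 h2 => absurd (show x ∈ K from ⟨h1, h2⟩) (h0 ▸ id)⟩
    obtain ⟨y, hy, hmin⟩ := hK.exists_isMinOn hne
      (show Continuous fun x => sn 0 x * sn 0 x + sn 1 x * sn 1 x by fun_prop).continuousOn
    have hpos : 0 < sn 0 y * sn 0 y + sn 1 y * sn 1 y := by
      refine lt_of_le_of_ne (add_nonneg (mul_self_nonneg _) (mul_self_nonneg _)) fun h0 => ?_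
      obtain ⟨e0, e1⟩ := (add_eq_zero_iff_of_nonneg (mul_self_nonneg _) (mul_self_nonneg _)).1
        h0.symm
      have key : ∀ i, sn i y * sn i y = 0 → y i = 0 ∨ 2 ≤ 1 - cs i y := fun i e => by
        have hn : Complex.normSq (fourier 1 (y i)) = 1 := by
          rw [Complex.normSq_eq_norm_sq]
          simp [fourier_apply]
        simp only [sn, ContinuousMap.coe_mk, mul_eq_zero, or_self] at e
        rw [Complex.normSq_apply, e, mul_zero, add_zero, mul_self_eq_one_iff] at hn
        rcases hn with hn | hn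
        · refine Or.inl (AddCircle.injective_toCircle one_ne_zero (Circle.ext ?_))
          have : fourier 1 (y i) = (1 : ℂ) := Complex.ext hn e
          simpa [fourier_apply] using this
        · exact Or.inr (by simp only [cs, ContinuousMap.coe_mk, hn]; norm_num)
      have hn : (1 - cs 0 y) + (1 - cs 1 y) ≤ 1 := hy.2
      rcases key 0 e0 with hy0 | hy0 <;> rcases key 1 e1 with hy1 | hy1
      · have hd0 : d y = 0 := by
          simp [d, mFourier_apply_two, hy0, hy1]
        linarith [hy.1, hd0]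
      all_goals linarith [cs_le_one 0 y, cs_le_one 1 y]
    refine ⟨2 / (sn 0 y * sn 0 y + sn 1 y * sn 1 y), by positivity, fun x h1 h2 => ?_⟩
    have := hmin (show x ∈ K from ⟨h1, h2⟩)
    rw [le_div_iff₀ two_pos, div_mul_eq_mul_div, le_div_iff₀ hpos]
    simp only [Set.mem_setOf_eq] at this
    linarith
  have hpt : ∀ x, d x ≤ (η • (1 : C(T2, ℝ)) + (4 : ℝ) • (axis k 0 + axis k 1 + near)) x := by
    intro x
    simp only [ContinuousMap.add_apply, ContinuousMap.smul_apply, ContinuousMap.one_apply,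
      smul_eq_mul, mul_one]
    have a0 : 0 ≤ axis k 0 x := clamp_nonneg _ _
    have a1 : 0 ≤ axis k 1 x := clamp_nonneg _ _
    have a2 : 0 ≤ near x :=
      add_nonneg (sub_nonneg.2 (cs_le_one 0 x)) (sub_nonneg.2 (cs_le_one 1 x))
    by_cases h1 : η ≤ d x
    · by_cases h2 : near x ≤ 1
      · have hk' := hkd x h1 h2
        have : 1 ≤ axis k 0 x + axis k 1 x := by
          have m0 := mul_nonneg hk (mul_self_nonneg (sn 0 x))
          have m1 := mul_nonneg hk (mul_self_nonneg (sn 1 x))
          simp only [axis, ContinuousMap.coe_mk, clamp, max_eq_right m0, max_eq_right m1]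
          rcases le_total 1 (k * (sn 0 x * sn 0 x)) with hh | hh
          · rw [min_eq_left hh]
            linarith [le_min zero_le_one m1]
          · rw [min_eq_right hh]
            rcases le_total 1 (k * (sn 1 x * sn 1 x)) with hh' | hh'
            · rw [min_eq_left hh']
              linarith
            · rw [min_eq_right hh']
              linarith
        linarith [hd4 x]
      · linarith [hd4 x, not_le.1 h2]
    · linarith [not_le.1 h1]
  have h3 := mass_mono h.action v hpt
  have hone : mass h.action v (1 : C(T2, ℝ)) = 1 := by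
    rw [mass, show toC 1 = mFourier 0 by ext x; simp [toC, mFourier_zero],
      functionalL_monomial]
    have hU0 : U 0 v = v := (U 0).injective (by rw [← h.action, add_zero])
    rw [hU0, inner_self_eq_norm_sq_to_K, h.norm_eq]
    simp
  rw [mass_cos h.action h.norm_eq q d fun _ => rfl, mass_add, mass_smul, hone, mass_smul, mass_add,
    mass_add] at h3
  linarith [mass_axis_le h hk 0, mass_axis_le h hk 1, mass_near_le h]

end FA.Kazhdan

end
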