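import Fermat.Agent.Kazhdan.Estimate
import Fermat.Agent.Root.SummaryCarterKeller
import Mathlib.Analysis.InnerProductSpace.Projection.Minimal
import Mathlib.Analysis.Convex.Topology

/-!
# Property (T) of `SL n ℤ`, `n ≥ 3`

Bounded generation turns relative property (T) into property (T): an almost fixed vector is moved
little by the whole group, and the shortest vector of the closed convex hull of its orbit is fixed
(Shalom).
-/

set_option autoImplicit false

noncomputable section

open scoped InnerProductSpace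

namespace FA.Kazhdan

open Matrix

section FixedPoint

variable {G H : Type*} [Group G] [NormedAddCommGroup H] [InnerProductSpace ℂ H] [CompleteSpace H]

theorem exists_fixed (π : G →* (H ≃ₗᵢ[ℂ] H)) {v : H} {r : ℝ} (h : ∀ g, ‖π g v - v‖ ≤ r) :
    ∃ w : H, (∀ g, π g w = w) ∧ ‖w - v‖ ≤ r ∧
      ∀ ℓ : H →L[ℂ] ℂ, (∀ g, ℓ (π g v) = 0) → ℓ w = 0 := by
  let _ : InnerProductSpace ℝ H := InnerProductSpace.rclikeToReal ℂ H
  let K := closure (convexHull ℝ (Set.range fun g => π g v))
  have hne : K.Nonempty :=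
    ⟨v, subset_closure (subset_convexHull ℝ _ ⟨1, by simp⟩)⟩
  have hconv : Convex ℝ K := (convex_convexHull ℝ _).closure
  obtain ⟨w, hw, hmin⟩ := exists_norm_eq_iInf_of_complete_convex hne isClosed_closure.isComplete
    hconv (0 : H)
  simp only [zero_sub, norm_neg] at hmin
  have hle : ∀ x ∈ K, ‖w‖ ≤ ‖x‖ := fun x hx => hmin ▸
    ciInf_le ⟨0, by rintro _ ⟨y, rfl⟩; exact norm_nonneg _⟩ (⟨x, hx⟩ : K)
  have hmap : ∀ g, ∀ x ∈ K, π g x ∈ K := fun g x hx => by
    have hc : IsClosed ((π g) ⁻¹' K) := isClosed_closure.preimage (π g).continuous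
    have hcv : Convex ℝ ((π g) ⁻¹' K) :=
      hconv.linear_preimage ((π g).toLinearEquiv.toLinearMap.restrictScalars ℝ)
    refine closure_minimal (convexHull_min ?_ hcv) hc hx
    rintro _ ⟨g', rfl⟩
    exact subset_closure (subset_convexHull ℝ _ ⟨g * g', by simp⟩)
  refine ⟨w, fun g => ?_, ?_, fun ℓ hℓ => ?_⟩
  · have hmid : (1 / 2 : ℝ) • π g w + (1 / 2 : ℝ) • w ∈ K :=
      hconv (hmap g w hw) hw (by norm_num) (by norm_num) (by norm_num)
    have h1 := hle _ hmid
    rw [← smul_add, norm_smul, Real.norm_of_nonneg (by norm_num : (0 : ℝ) ≤ 1 / 2)] at h1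
    have h2 := parallelogram_law_with_norm ℂ (π g w) w
    rw [LinearIsometryEquiv.norm_map] at h2
    have h3 : ‖π g w - w‖ = 0 := by
      nlinarith [norm_nonneg (π g w - w), norm_nonneg w, norm_nonneg (π g w + w),
        mul_le_mul h1 h1 (norm_nonneg w) (by positivity : (0 : ℝ) ≤ 1 / 2 * ‖π g w + w‖)]
    exact sub_eq_zero.1 (norm_eq_zero.1 h3)
  · have hsub : K ⊆ Metric.closedBall v r :=
      closure_minimal (convexHull_min (by
        rintro _ ⟨g, rfl⟩
        exact mem_closedBall_iff_norm.2 (h g)) (convex_closedBall v r)) Metric.isClosed_closedBall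
    exact mem_closedBall_iff_norm.1 (hsub hw)
  · have hsub : K ⊆ ℓ ⁻¹' {0} :=
      closure_minimal (convexHull_min (by
        rintro _ ⟨g, rfl⟩
        exact hℓ g) ((convex_singleton (0 : ℂ)).linear_preimage
          (ℓ.toLinearMap.restrictScalars ℝ))) (isClosed_singleton.preimage ℓ.continuous)
    exact hsub hw

end FixedPoint

section SL

variable {n : ℕ}

/-- The elementary matrix. -/
def el (i j : Fin n) (h : i ≠ j) (t : ℤ) : SpecialLinearGroup (Fin n) ℤ :=
  ⟨transvection i j t, det_transvection_of_ne _ _ h _⟩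

/-- The elementary matrices with entries `± 1`. -/
def generators (n : ℕ) : Finset (SpecialLinearGroup (Fin n) ℤ) :=
  ((Finset.univ : Finset {p : Fin n × Fin n // p.1 ≠ p.2}).image fun p => el p.1.1 p.1.2 p.2 1) ∪
    (Finset.univ : Finset {p : Fin n × Fin n // p.1 ≠ p.2}).image fun p => el p.1.1 p.1.2 p.2 (-1)

theorem el_mem_generators {i j : Fin n} (h : i ≠ j) {t : ℤ} (ht : t = 1 ∨ t = -1) :
    el i j h t ∈ generators n := by
  rcases ht with rfl | rfl
  · exact Finset.mem_union_left _ (Finset.mem_image.2 ⟨⟨(i, j), h⟩, Finset.mem_univ _, rfl⟩)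
  · exact Finset.mem_union_right _ (Finset.mem_image.2 ⟨⟨(i, j), h⟩, Finset.mem_univ _, rfl⟩)

variable {i j k : Fin n} (hij : i ≠ j) (hkj : k ≠ j)

/-- The translations in column `j`. -/
def translation (q : Fin 2 → ℤ) : SpecialLinearGroup (Fin n) ℤ :=
  el i j hij (q 0) * el k j hkj (q 1)

theorem coe_translation (q : Fin 2 → ℤ) :
    (translation hij hkj q).1 = 1 + single i j (q 0) + single k j (q 1) := by
  simp [translation, el, transvection, add_mul, mul_add, single_mul_single_of_ne, hkj.symm,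
    add_assoc]

theorem translation_add (p q : Fin 2 → ℤ) :
    translation hij hkj (p + q) = translation hij hkj p * translation hij hkj q := by
  apply Subtype.ext
  rw [SpecialLinearGroup.coe_mul, coe_translation, coe_translation, coe_translation]
  simp [add_mul, mul_add, single_mul_single_of_ne, hij.symm, hkj.symm, single_add]
  abel

theorem translation_upper (hik : i ≠ k) (t : ℤ) (q : Fin 2 → ℤ) :
    translation hij hkj q * el i k hik t =
      el i k hik t * translation hij hkj ![q 0 - t * q 1, q 1] := by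
  apply Subtype.ext
  rw [SpecialLinearGroup.coe_mul, SpecialLinearGroup.coe_mul, coe_translation, coe_translation]
  simp [el, transvection, add_mul, mul_add, single_mul_single_same, single_mul_single_of_ne,
    hij.symm, hkj.symm, hik.symm, sub_eq_add_neg, single_add, ← single_neg]
  abel

theorem translation_lower (hki : k ≠ i) (t : ℤ) (q : Fin 2 → ℤ) :
    translation hij hkj q * el k i hki t =
      el k i hki t * translation hij hkj ![q 0, q 1 - t * q 0] := by
  apply Subtype.ext
  rw [SpecialLinearGroup.coe_mul, SpecialLinearGroup.coe_mul, coe_translation, coe_translation]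
  simp [el, transvection, add_mul, mul_add, single_mul_single_same, single_mul_single_of_ne,
    hij.symm, hkj.symm, hki.symm, sub_eq_add_neg, single_add, ← single_neg]
  abel

variable {H : Type*} [NormedAddCommGroup H] [InnerProductSpace ℂ H]

theorem norm_el_sub_le (hn : 3 ≤ n) (π : SpecialLinearGroup (Fin n) ℤ →* (H ≃ₗᵢ[ℂ] H))
    {v : H} (hv : ‖v‖ = 1) {δ : ℝ} (hS : ∀ s ∈ generators n, ‖π s v - v‖ ≤ δ)
    {i j : Fin n} (hij : i ≠ j) (t : ℤ) :
    ‖π (el i j hij t) v - v‖ ^ 2 ≤ 160 * δ + 84 * δ ^ 2 := by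
  obtain ⟨k, hki, hkj⟩ : ∃ k : Fin n, k ≠ i ∧ k ≠ j := by
    have : ((Finset.univ : Finset (Fin n)) \ {i, j}).Nonempty := Finset.card_pos.1 (by
      rw [Finset.card_sdiff_of_subset (Finset.subset_univ _), Finset.card_pair hij,
        Finset.card_univ, Fintype.card_fin]
      omega)
    obtain ⟨k, hk⟩ := this
    simp only [Finset.mem_sdiff, Finset.mem_insert, Finset.mem_singleton, not_or] at hk
    exact ⟨k, hk.2.1, hk.2.2⟩
  let U : (Fin 2 → ℤ) → H ≃ₗᵢ[ℂ] H := fun q => π (translation hij hkj q)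
  have h0 : ∀ (a b : Fin n) (hab : a ≠ b), el a b hab 0 = 1 := fun a b hab =>
    Subtype.ext (transvection_zero _ _)
  have hU : AlmostFixed U v δ := by
    refine ⟨fun p q x => ?_, hv, fun l => ?_, fun t ht => ?_, fun t ht => ?_⟩
    · simp [U, translation_add]
    · fin_cases l
      · simpa [U, translation, h0] using hS _ (el_mem_generators hij (Or.inl rfl))
      · simpa [U, translation, h0] using hS _ (el_mem_generators hkj (Or.inl rfl))
    · refine ⟨π (el i k hki.symm t), hS _ (el_mem_generators _ ht), fun q x => ?_⟩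
      show (π _ * π _) x = (π _ * π _) x
      rw [← map_mul, ← map_mul, translation_upper]
    · refine ⟨π (el k i hki t), hS _ (el_mem_generators _ ht), fun q x => ?_⟩
      show (π _ * π _) x = (π _ * π _) x
      rw [← map_mul, ← map_mul, translation_lower]
  have h := norm_sub_sq_le hU ![t, 0]
  simpa [U, translation, h0] using h

/-- **Property (T)**, with a vector close to the given one. -/
theorem exists_kazhdan.{u} (hn : 3 ≤ n) :
    ∃ ε : ℝ, 0 < ε ∧ ∀ (H : Type u) [NormedAddCommGroup H] [InnerProductSpace ℂ H]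
      [CompleteSpace H] (π : SpecialLinearGroup (Fin n) ℤ →* (H ≃ₗᵢ[ℂ] H)) (v : H), ‖v‖ = 1 →
      (∀ s ∈ generators n, ‖π s v - v‖ ≤ ε) →
        ∃ w : H, (∀ g, π g w = w) ∧ ‖w - v‖ ≤ 1 / 2 ∧
          ∀ ℓ : H →L[ℂ] ℂ, (∀ g, ℓ (π g v) = 0) → ℓ w = 0 := by
  obtain ⟨N, hN⟩ := FA.Summary.carter_keller hn
  refine ⟨1 / (1000 * ((N : ℝ) + 1) ^ 2), by positivity, fun H _ _ _ π v hv hS => exists_fixed π ?_⟩
  set δ := 1 / (1000 * ((N : ℝ) + 1) ^ 2)
  have hδ : 0 < δ := by positivity
  have hδ1 : δ ≤ 1 := by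
    rw [div_le_one (by positivity)]
    nlinarith [Nat.cast_nonneg (α := ℝ) N]
  have hel : ∀ (i j : Fin n) (h : i ≠ j) (t : ℤ),
      ‖π (el i j h t) v - v‖ ≤ 1 / (2 * ((N : ℝ) + 1)) := fun i j h t => by
    refine (pow_le_pow_iff_left₀ (norm_nonneg _) (by positivity) two_ne_zero).1
      ((norm_el_sub_le hn π hv hS h t).trans ?_)
    have h' : 160 * δ + 84 * δ ^ 2 ≤ 250 * δ := by nlinarith
    refine h'.trans_eq ?_
    simp only [δ]
    field_simp
    ring
  intro g
  obtain ⟨L, hL, hne, hg⟩ := hN g.1 g.2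
  have key : ∀ L : List (Fin n × Fin n × ℤ), (∀ x ∈ L, x.1 ≠ x.2.1) →
      ∀ g : SpecialLinearGroup (Fin n) ℤ,
        g.1 = (L.map fun x => transvection x.1 x.2.1 x.2.2).prod →
          ‖π g v - v‖ ≤ L.length * (1 / (2 * ((N : ℝ) + 1))) := by
    intro L
    induction L with
    | nil =>
      intro _ g hg
      rw [show g = 1 from Subtype.ext hg]
      simp
    | cons x L ih =>
      intro hne g hg
      set a := el x.1 x.2.1 (hne x List.mem_cons_self) x.2.2
      have hb : (a⁻¹ * g).1 = (L.map fun x => transvection x.1 x.2.1 x.2.2).prod := by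
        rw [SpecialLinearGroup.coe_mul, hg, List.map_cons, List.prod_cons, ← mul_assoc,
          show (a⁻¹).1 * transvection x.1 x.2.1 x.2.2 = 1 from
            congrArg Subtype.val (inv_mul_cancel a), one_mul]
      have hib := ih (fun y hy => hne y (List.mem_cons_of_mem _ hy)) _ hb
      have e : π g v = π a (π (a⁻¹ * g) v) := by
        show _ = (π a * π (a⁻¹ * g)) v
        rw [← map_mul, mul_inv_cancel_left]
      calc ‖π g v - v‖ = ‖(π a (π (a⁻¹ * g) v) - π a v) + (π a v - v)‖ := by rw [e]; abel_nf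
        _ ≤ ‖π (a⁻¹ * g) v - v‖ + ‖π a v - v‖ := by
          refine (norm_add_le _ _).trans_eq ?_
          rw [← map_sub, LinearIsometryEquiv.norm_map]
        _ ≤ _ := by
          rw [List.length_cons]
          push_cast
          linarith [hel x.1 x.2.1 (hne x List.mem_cons_self) x.2.2]
  refine (key L hne g hg).trans ?_
  rw [mul_one_div, div_le_iff₀ (by positivity)]
  have : (L.length : ℝ) ≤ N := by exact_mod_cast hL
  linarith

end SL

end FA.Kazhdan

end
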