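import Mathlib.Analysis.Fourier.AddCircleMulti
import Mathlib.Analysis.InnerProductSpace.LinearMap
import Mathlib.Order.Filter.Ultrafilter.Basic
import Mathlib.Topology.MetricSpace.ProperSpace

/-!
# Positive functionals of two commuting unitary operators

The Fejér densities of a vector under a unitary action of `ℤ²` give a positive functional on the
continuous functions on the torus, Lipschitz in the vector; its Fourier coefficients are the matrix
coefficients, so an operator normalising the action acts on it through the torus.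
-/

set_option autoImplicit false

noncomputable section

open MeasureTheory Filter UnitAddTorus
open scoped Topology InnerProductSpace

namespace FA.Kazhdan

/-- The two-dimensional torus. -/
abbrev T2 : Type := UnitAddTorus (Fin 2)

/-- Its probability Haar measure. -/
def haar2 : Measure T2 := Measure.pi fun _ : Fin 2 => AddCircle.haarAddCircle

instance : IsProbabilityMeasure haar2 := by unfold haar2; infer_instance

theorem integral_fourier_haar (n : ℤ) :
    ∫ x : UnitAddCircle, fourier n x ∂AddCircle.haarAddCircle = if n = 0 then 1 else 0 := by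
  have h := orthonormal_iff_ite.1 (orthonormal_fourier (T := (1 : ℝ))) 0 n
  simp only [ContinuousMap.inner_toLp, fourier_zero, map_one, mul_one, eq_comm (a := (0 : ℤ))] at h
  exact h

theorem integral_monomial (n : Fin 2 → ℤ) :
    ∫ x, mFourier n x ∂haar2 = if n = 0 then 1 else 0 := by
  simp only [mFourier, ContinuousMap.coe_mk, haar2]
  rw [integral_fintype_prod_eq_prod (fun (i : Fin 2) (x : UnitAddCircle) => fourier (n i) x)]
  simp only [integral_fourier_haar, Fin.prod_univ_two]
  by_cases h : n = 0
  · simp [h]
  · rw [if_neg h]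
    have : n 0 ≠ 0 ∨ n 1 ≠ 0 := by
      by_contra hc
      push Not at hc
      exact h (funext fun i => by fin_cases i <;> simp [hc.1, hc.2])
    rcases this with h0 | h0 <;> simp [h0]

variable {H : Type*} [NormedAddCommGroup H] [InnerProductSpace ℂ H]

/-- A unitary action of `ℤ²`. -/
def IsAction (U : (Fin 2 → ℤ) → H ≃ₗᵢ[ℂ] H) : Prop := ∀ p q x, U (p + q) x = U p (U q x)

/-- The indices of a square box. -/
def box (N : ℕ) : Finset (Fin 2 → ℤ) := Fintype.piFinset fun _ => Finset.Icc 0 (N : ℤ)

theorem card_box (N : ℕ) : (box N).card = (N + 1) ^ 2 := by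
  simp [box, Fintype.card_piFinset, sq]

/-- The Fejér sum. -/
def sumA (U : (Fin 2 → ℤ) → H ≃ₗᵢ[ℂ] H) (N : ℕ) (v : H) (x : T2) : H :=
  ∑ p ∈ box N, mFourier p x • U p v

/-- The Fejér density. -/
def density (U : (Fin 2 → ℤ) → H ≃ₗᵢ[ℂ] H) (N : ℕ) (v : H) (x : T2) : ℝ :=
  ‖sumA U N v x‖ ^ 2 / (box N).card

variable (U : (Fin 2 → ℤ) → H ≃ₗᵢ[ℂ] H)

theorem continuous_sumA (N : ℕ) (v : H) : Continuous (sumA U N v) :=
  continuous_finsetSum _ fun p _ => (mFourier p).continuous.smul continuous_const

theorem continuous_density (N : ℕ) (v : H) : Continuous (density U N v) :=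
  ((continuous_sumA U N v).norm.pow 2).div_const _

theorem density_nonneg (N : ℕ) (v : H) (x : T2) : 0 ≤ density U N v x := by
  unfold density
  positivity

theorem integrable_of_continuous {E : Type*} [NormedAddCommGroup E] {f : T2 → E}
    (hf : Continuous f) : Integrable f haar2 :=
  (hf.continuousOn.integrableOn_compact isCompact_univ).integrable_of_ae_notMem_eq_zero
    (ae_of_all _ fun x hx => absurd (Set.mem_univ x) hx)

variable {U}

/-- **The Fourier coefficients of the densities.** -/
theorem integral_monomial_density (hU : IsAction U) (N : ℕ) (v : H) (q : Fin 2 → ℤ) :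
    ∫ x, mFourier q x * (density U N v x : ℂ) ∂haar2 =
      (((box N).filter fun p => p - q ∈ box N).card : ℂ) / (box N).card * ⟪U q v, v⟫_ℂ := by
  have e : ∀ x, mFourier q x * (density U N v x : ℂ) = (∑ p ∈ box N, ∑ p' ∈ box N,
      mFourier (q + -p + p') x * ⟪U p v, U p' v⟫_ℂ) / (box N).card := fun x => by
    rw [density, Complex.ofReal_div, Complex.ofReal_pow, Complex.ofReal_natCast, mul_div_assoc']
    congr 1
    rw [show ((‖sumA U N v x‖ : ℂ)) ^ 2 = ⟪sumA U N v x, sumA U N v x⟫_ℂ from
      (inner_self_eq_norm_sq_to_K (𝕜 := ℂ) (sumA U N v x)).symm,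
      sumA, sum_inner, Finset.mul_sum]
    refine Finset.sum_congr rfl fun p _ => ?_
    rw [inner_sum, Finset.mul_sum]
    refine Finset.sum_congr rfl fun p' _ => ?_
    rw [inner_smul_left, inner_smul_right, mFourier_add, mFourier_add, mFourier_neg]
    ring
  simp only [e]
  rw [integral_div, integral_finsetSum _ fun p _ => integrable_finsetSum _ fun p' _ =>
    integrable_of_continuous (f := fun x => mFourier (q + -p + p') x * ⟪U p v, U p' v⟫_ℂ)
      ((mFourier _).continuous.mul continuous_const)]
  have e2 : ∀ p ∈ box N, ∫ x, ∑ p' ∈ box N, mFourier (q + -p + p') x * ⟪U p v, U p' v⟫_ℂ ∂haar2 =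
      if p - q ∈ box N then ⟪U q v, v⟫_ℂ else 0 := fun p _ => by
    rw [integral_finsetSum _ fun p' _ =>
      integrable_of_continuous (f := fun x => mFourier (q + -p + p') x * ⟪U p v, U p' v⟫_ℂ)
        ((mFourier _).continuous.mul continuous_const)]
    simp only [integral_mul_const, integral_monomial, ite_mul, one_mul, zero_mul]
    rw [← Finset.sum_ite_eq' (box N) (p - q) (fun _ => ⟪U q v, v⟫_ℂ)]
    refine Finset.sum_congr rfl fun p' _ => ?_
    have h : q + -p + p' = 0 ↔ p' = p - q := by
      constructor
      · intro h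
        linear_combination (norm := abel) h
      · intro h
        rw [h]
        abel
    simp only [h]
    split_ifs with hp
    · rw [hp]
      conv_lhs => rw [show p = (p - q) + q by abel]
      rw [hU, add_sub_cancel_right, LinearIsometryEquiv.inner_map_map]
    · rfl
  rw [Finset.sum_congr rfl e2, ← Finset.sum_filter, Finset.sum_const, nsmul_eq_mul]
  ring

theorem integral_density (hU : IsAction U) (N : ℕ) (v : H) :
    ∫ x, density U N v x ∂haar2 = ‖v‖ ^ 2 := by
  have h := integral_monomial_density hU N v 0
  simp only [mFourier_zero, ContinuousMap.one_apply, one_mul, sub_zero] at h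
  have hU0 : U 0 v = v := (U 0).injective (by rw [← hU, add_zero])
  rw [Finset.filter_true_of_mem (fun p hp => hp), hU0, div_self (by simp [card_box]; norm_cast),
    one_mul, inner_self_eq_norm_sq_to_K, integral_complex_ofReal] at h
  exact Complex.ofReal_inj.1 (h.trans (Complex.ofReal_pow _ _).symm)

/-- The approximating functionals. -/
def approx (U : (Fin 2 → ℤ) → H ≃ₗᵢ[ℂ] H) (N : ℕ) (v : H) (f : C(T2, ℂ)) : ℂ :=
  ∫ x, f x * (density U N v x : ℂ) ∂haar2

theorem integrable_mul_density (N : ℕ) (v : H) (f : C(T2, ℂ)) :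
    Integrable (fun x => f x * (density U N v x : ℂ)) haar2 :=
  integrable_of_continuous
    (f.continuous.mul (Complex.continuous_ofReal.comp (continuous_density U N v)))

theorem norm_approx_le (hU : IsAction U) (N : ℕ) (v : H) (f : C(T2, ℂ)) :
    ‖approx U N v f‖ ≤ ‖v‖ ^ 2 * ‖f‖ := by
  refine (norm_integral_le_integral_norm _).trans ?_
  rw [← integral_density hU N v, mul_comm, ← integral_const_mul]
  refine integral_mono (integrable_mul_density N v f).norm
    (integrable_of_continuous (continuous_const.mul (continuous_density U N v))) fun x => ?_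
  simp only [norm_mul, Complex.norm_real, Real.norm_of_nonneg (density_nonneg U N v x)]
  exact mul_le_mul_of_nonneg_right (f.norm_coe_le_norm x) (density_nonneg U N v x)

/-- **Lipschitz in the vector.** -/
theorem norm_approx_sub_le (hU : IsAction U) (N : ℕ) {v w : H} (hv : ‖v‖ = 1) (hw : ‖w‖ = 1)
    (f : C(T2, ℂ)) : ‖approx U N v f - approx U N w f‖ ≤ 2 * ‖v - w‖ * ‖f‖ := by
  rcases eq_or_ne v w with rfl | hne
  · simp
  have hd : 0 < ‖v - w‖ := norm_pos_iff.2 (sub_ne_zero.2 hne)
  set t := ‖v - w‖
  rw [approx, approx, ← integral_sub (integrable_mul_density N v f) (integrable_mul_density N w f)]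
  refine (norm_integral_le_integral_norm _).trans ?_
  have hc : (0 : ℝ) < (box N).card := by rw [card_box]; positivity
  have hpt : ∀ x, ‖f x * (density U N v x : ℂ) - f x * (density U N w x : ℂ)‖ ≤
      ‖f‖ * (density U N (v - w) x / t + t / 2 * (density U N v x + density U N w x)) := fun x => by
    rw [← mul_sub, norm_mul, ← Complex.ofReal_sub, Complex.norm_real, Real.norm_eq_abs]
    refine mul_le_mul (f.norm_coe_le_norm x) ?_ (abs_nonneg _) (norm_nonneg _)
    have hlin : sumA U N (v - w) x = sumA U N v x - sumA U N w x := by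
      simp [sumA, smul_sub, Finset.sum_sub_distrib]
    simp only [density, hlin]
    set a := sumA U N v x
    set b := sumA U N w x
    have h1 := norm_sub_norm_le a b
    have h2 := norm_sub_norm_le b a
    rw [norm_sub_rev b a] at h2
    rw [← sub_div, abs_div, abs_of_pos hc,
      show ‖a - b‖ ^ 2 / ((box N).card : ℝ) / t + t / 2 * (‖a‖ ^ 2 / (box N).card +
        ‖b‖ ^ 2 / (box N).card) = (‖a - b‖ ^ 2 / t + t / 2 * (‖a‖ ^ 2 + ‖b‖ ^ 2)) / (box N).card by
          field_simp]
    refine div_le_div_of_nonneg_right ?_ hc.le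
    refine le_trans (b := ‖a - b‖ * (‖a‖ + ‖b‖)) ?_ ?_
    · rw [show ‖a‖ ^ 2 - ‖b‖ ^ 2 = (‖a‖ - ‖b‖) * (‖a‖ + ‖b‖) by ring, abs_mul,
        abs_of_nonneg (by positivity : (0 : ℝ) ≤ ‖a‖ + ‖b‖)]
      exact mul_le_mul_of_nonneg_right (abs_le.2 ⟨by linarith, by linarith⟩) (by positivity)
    · rw [div_add' _ _ _ hd.ne', le_div_iff₀ hd]
      nlinarith [sq_nonneg (2 * ‖a - b‖ - t * (‖a‖ + ‖b‖)),
        mul_nonneg (mul_self_nonneg t) (sq_nonneg (‖a‖ - ‖b‖))]
  refine (integral_mono ((integrable_mul_density N v f).sub (integrable_mul_density N w f)).norm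
    (integrable_of_continuous ?_) hpt).trans_eq ?_
  · exact continuous_const.mul (((continuous_density U N _).div_const _).add
      (continuous_const.mul ((continuous_density U N v).add (continuous_density U N w))))
  · rw [integral_const_mul, integral_add, integral_div, integral_const_mul, integral_add,
      integral_density hU, integral_density hU, integral_density hU, hv, hw]
    · field_simp
      ring
    · exact integrable_of_continuous (continuous_density U N v)
    · exact integrable_of_continuous (continuous_density U N w)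
    · exact integrable_of_continuous ((continuous_density U N _).div_const _)
    · exact integrable_of_continuous
        (continuous_const.mul ((continuous_density U N v).add (continuous_density U N w)))

variable (U)

/-- **The functional**: a limit of the approximations along an ultrafilter. -/
def functional (v : H) (f : C(T2, ℂ)) : ℂ :=
  limUnder (hyperfilter ℕ : Filter ℕ) fun N => approx U N v f

variable {U}

theorem tendsto_functional (hU : IsAction U) (v : H) (f : C(T2, ℂ)) :
    Tendsto (fun N => approx U N v f) (hyperfilter ℕ) (𝓝 (functional U v f)) := by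
  refine tendsto_nhds_limUnder ?_
  obtain ⟨a, -, ha⟩ := (isCompact_closedBall (0 : ℂ) (‖v‖ ^ 2 * ‖f‖)).ultrafilter_le_nhds
    ((hyperfilter ℕ).map fun N => approx U N v f)
    (le_principal_iff.2 (Ultrafilter.mem_map.2 (univ_mem' fun N =>
      mem_closedBall_zero_iff.2 (norm_approx_le hU N v f))))
  exact ⟨a, ha⟩

theorem functional_add (hU : IsAction U) (v : H) (f g : C(T2, ℂ)) :
    functional U v (f + g) = functional U v f + functional U v g :=
  tendsto_nhds_unique (tendsto_functional hU v _)
    (((tendsto_functional hU v f).add (tendsto_functional hU v g)).congr fun N => by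
      rw [approx, approx, approx, ← integral_add (integrable_mul_density N v f)
        (integrable_mul_density N v g)]
      simp only [ContinuousMap.add_apply, add_mul])

theorem functional_smul (hU : IsAction U) (v : H) (c : ℂ) (f : C(T2, ℂ)) :
    functional U v (c • f) = c * functional U v f :=
  tendsto_nhds_unique (tendsto_functional hU v _)
    (((tendsto_functional hU v f).const_mul c).congr fun N => by
      rw [approx, approx, ← integral_const_mul]
      simp only [ContinuousMap.smul_apply, smul_eq_mul, mul_assoc])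

/-- The functional as a continuous linear map. -/
def functionalL (hU : IsAction U) (v : H) : C(T2, ℂ) →L[ℂ] ℂ :=
  LinearMap.mkContinuous
    { toFun := functional U v
      map_add' := functional_add hU v
      map_smul' := functional_smul hU v }
    (‖v‖ ^ 2) fun f => le_of_tendsto' (tendsto_functional hU v f).norm fun N =>
      norm_approx_le hU N v f

/-- **Matrix coefficients.** -/
theorem functionalL_monomial (hU : IsAction U) (v : H) (q : Fin 2 → ℤ) :
    functionalL hU v (mFourier q) = ⟪U q v, v⟫_ℂ := by
  refine tendsto_nhds_unique (tendsto_functional hU v _) ?_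
  have hr : Tendsto (fun N : ℕ => (((box N).filter fun p => p - q ∈ box N).card : ℝ) /
      (box N).card) atTop (𝓝 1) := by
    have hlow : Tendsto (fun N : ℕ => 1 - ((|q 0| + |q 1| : ℤ) : ℝ) / (N + 1)) atTop (𝓝 1) := by
      simpa using ((tendsto_const_div_atTop_nhds_zero_nat ((|q 0| + |q 1| : ℤ) : ℝ)).comp
        (tendsto_add_atTop_nat 1)).const_sub 1
    refine tendsto_of_tendsto_of_tendsto_of_le_of_le hlow tendsto_const_nhds (fun N => ?_)
      fun N => div_le_one_of_le₀ (Nat.cast_le.2 (Finset.card_filter_le _ _)) (Nat.cast_nonneg _)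
    dsimp only
    rw [card_box, le_div_iff₀ (by positivity)]
    have hsub : box N ⊆ ((box N).filter fun p => p - q ∈ box N) ∪
        Fintype.piFinset (fun i : Fin 2 => if i = 0 then
          (Finset.Icc 0 (N : ℤ)).filter (fun a => a - q 0 ∉ Finset.Icc 0 (N : ℤ))
          else Finset.Icc 0 (N : ℤ)) ∪
        Fintype.piFinset (fun i : Fin 2 => if i = 1 then
          (Finset.Icc 0 (N : ℤ)).filter (fun a => a - q 1 ∉ Finset.Icc 0 (N : ℤ))
          else Finset.Icc 0 (N : ℤ)) := by
      intro p hp
      simp only [Finset.mem_union, Finset.mem_filter, Fintype.mem_piFinset, Fin.forall_fin_two,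
        box, Finset.mem_Icc, Pi.sub_apply] at hp ⊢
      simp
      omega
    have hbad : ∀ a : ℤ, (((Finset.Icc 0 (N : ℤ)).filter
        fun x => x - a ∉ Finset.Icc 0 (N : ℤ)).card : ℤ) ≤ |a| := fun a => by
      rcases le_total 0 a with ha | ha
      · rw [abs_of_nonneg ha]
        refine le_trans (Int.ofNat_le.2 (Finset.card_le_card (t := Finset.Ico 0 a) ?_)) ?_
        · intro x hx
          simp only [Finset.mem_filter, Finset.mem_Icc, Finset.mem_Ico] at hx ⊢
          omega
        · simp [ha]
      · rw [abs_of_nonpos ha]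
        refine le_trans (Int.ofNat_le.2
          (Finset.card_le_card (t := Finset.Ioc ((N : ℤ) + a) N) ?_)) ?_
        · intro x hx
          simp only [Finset.mem_filter, Finset.mem_Icc, Finset.mem_Ioc] at hx ⊢
          omega
        · simp [ha]
    have hN : ((Finset.Icc 0 (N : ℤ)).card : ℤ) = N + 1 := by simp
    have h := (Finset.card_le_card hsub).trans ((Finset.card_union_le _ _).trans
      (Nat.add_le_add_right (Finset.card_union_le _ _) _))
    simp only [Fintype.card_piFinset, Fin.prod_univ_two, if_true,
      if_neg (by decide : ¬ (1 : Fin 2) = 0), if_neg (by decide : ¬ (0 : Fin 2) = 1),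
      card_box] at h
    have h' : ((N + 1 : ℤ)) ^ 2 ≤ ((box N).filter fun p => p - q ∈ box N).card +
        |q 0| * (N + 1) + (N + 1) * |q 1| := by
      refine le_trans (Int.ofNat_le.2 h) ?_
      push_cast [hN]
      gcongr <;> exact hbad _
    have h'' : ((N + 1 : ℝ)) ^ 2 ≤ (((box N).filter fun p => p - q ∈ box N).card : ℝ) +
        ((|q 0| + |q 1| : ℤ) : ℝ) * (N + 1) := by
      have h3 : ((N + 1 : ℤ)) ^ 2 ≤ ((box N).filter fun p => p - q ∈ box N).card +
          (|q 0| + |q 1|) * (N + 1) := by linarith [h']
      have h4 := (Int.cast_le (R := ℝ)).2 h3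
      push_cast at h4 ⊢
      exact h4
    push_cast at h'' ⊢
    field_simp
    linarith
  have := ((Complex.continuous_ofReal.tendsto _).comp hr).mul_const ⟪U q v, v⟫_ℂ
  simp only [Complex.ofReal_one, one_mul] at this
  refine (this.mono_left Nat.hyperfilter_le_atTop).congr fun N => ?_
  simp only [approx, integral_monomial_density hU, Function.comp_apply]
  push_cast
  rfl

theorem norm_functionalL_sub_le (hU : IsAction U) {v w : H} (hv : ‖v‖ = 1) (hw : ‖w‖ = 1)
    (f : C(T2, ℂ)) : ‖functionalL hU v f - functionalL hU w f‖ ≤ 2 * ‖v - w‖ * ‖f‖ :=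
  le_of_tendsto' ((tendsto_functional hU v f).sub (tendsto_functional hU w f)).norm fun N =>
    norm_approx_sub_le hU N hv hw f

/-- The embedding of real functions. -/
def toC (f : C(T2, ℝ)) : C(T2, ℂ) := (⟨Complex.ofReal, Complex.continuous_ofReal⟩ : C(ℝ, ℂ)).comp f

/-- The functional on real functions. -/
def mass (hU : IsAction U) (v : H) (f : C(T2, ℝ)) : ℝ := (functionalL hU v (toC f)).re

theorem mass_add (hU : IsAction U) (v : H) (f g : C(T2, ℝ)) :
    mass hU v (f + g) = mass hU v f + mass hU v g := by
  rw [mass, show toC (f + g) = toC f + toC g by ext x; simp [toC], map_add, Complex.add_re]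
  rfl

theorem mass_smul (hU : IsAction U) (v : H) (c : ℝ) (f : C(T2, ℝ)) :
    mass hU v (c • f) = c * mass hU v f := by
  rw [mass, show toC (c • f) = (c : ℂ) • toC f by ext x; simp [toC], map_smul, smul_eq_mul,
    Complex.re_ofReal_mul]
  rfl

theorem mass_nonneg (hU : IsAction U) (v : H) {f : C(T2, ℝ)} (hf : ∀ x, 0 ≤ f x) :
    0 ≤ mass hU v f :=
  ge_of_tendsto' ((Complex.continuous_re.tendsto _).comp (tendsto_functional hU v (toC f)))
    fun N => by
      simp only [Function.comp_apply, approx, toC, ContinuousMap.comp_apply, ContinuousMap.coe_mk]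
      rw [show (fun x => (f x : ℂ) * (density U N v x : ℂ)) =
        fun x => ((f x * density U N v x : ℝ) : ℂ) from
          funext fun x => (Complex.ofReal_mul _ _).symm,
        integral_complex_ofReal, Complex.ofReal_re]
      exact integral_nonneg fun x => mul_nonneg (hf x) (density_nonneg U N v x)

theorem mass_mono (hU : IsAction U) (v : H) {f g : C(T2, ℝ)} (h : ∀ x, f x ≤ g x) :
    mass hU v f ≤ mass hU v g := by
  have e := mass_add hU v f (g - f)
  rw [add_sub_cancel] at e
  linarith [mass_nonneg hU v (f := g - f) fun x => sub_nonneg.2 (h x)]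

theorem abs_mass_sub_le (hU : IsAction U) {v w : H} (hv : ‖v‖ = 1) (hw : ‖w‖ = 1) (f : C(T2, ℝ))
    (hf : ∀ x, |f x| ≤ 1) : |mass hU v f - mass hU w f| ≤ 2 * ‖v - w‖ := by
  rw [mass, mass, ← Complex.sub_re]
  refine (Complex.abs_re_le_norm _).trans ((norm_functionalL_sub_le hU hv hw _).trans ?_)
  refine mul_le_of_le_one_right (by positivity)
    ((ContinuousMap.norm_le _ zero_le_one).2 fun x => ?_)
  simpa [toC] using hf x

/-- An operator normalising the action acts on the functional through the torus. -/
theorem mass_comp (hU : IsAction U) (g : H ≃ₗᵢ[ℂ] H) (σ : C(T2, T2))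
    (h : ∀ q, ∃ q', (mFourier q).comp σ = mFourier q' ∧ ∀ x, U q (g x) = g (U q' x)) (v : H)
    (f : C(T2, ℝ)) : mass hU (g v) f = mass hU v (f.comp σ) := by
  have key : functionalL hU (g v) =
      (functionalL hU v).comp (⟨{
        toFun := fun r => r.comp σ
        map_add' := fun _ _ => rfl
        map_smul' := fun _ _ => rfl }, σ.continuous_precomp⟩ : C(T2, ℂ) →L[ℂ] C(T2, ℂ)) := by
    refine ContinuousLinearMap.ext_on
      (Submodule.dense_iff_topologicalClosure_eq_top.2 span_mFourier_closure_eq_top) ?_
    rintro _ ⟨q, rfl⟩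
    obtain ⟨q', hq, hg⟩ := h q
    simp only [ContinuousLinearMap.comp_apply]
    change _ = functionalL hU v ((mFourier q).comp σ)
    rw [hq, functionalL_monomial, functionalL_monomial, hg, LinearIsometryEquiv.inner_map_map]
  rw [mass, mass, key]
  rfl

theorem mass_cos (hU : IsAction U) {v : H} (hv : ‖v‖ = 1) (q : Fin 2 → ℤ)
    (f : C(T2, ℝ)) (hf : ∀ x, f x = 2 - 2 * (mFourier q x).re) :
    mass hU v f = ‖U q v - v‖ ^ 2 := by
  have e : toC f = (2 : ℂ) • mFourier 0 + (-1 : ℂ) • mFourier q + (-1 : ℂ) • mFourier (-q) := by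
    ext x
    simp only [toC, ContinuousMap.comp_apply, ContinuousMap.coe_mk, hf, ContinuousMap.add_apply,
      ContinuousMap.smul_apply, smul_eq_mul, mFourier_zero, mFourier_neg, ContinuousMap.one_apply]
    apply Complex.ext <;> simp <;> ring
  have hU0 : U 0 v = v := (U 0).injective (by rw [← hU, add_zero])
  have hneg : ⟪U (-q) v, v⟫_ℂ = ⟪v, U q v⟫_ℂ := by
    rw [← LinearIsometryEquiv.inner_map_map (U q) (U (-q) v) v, ← hU, add_neg_cancel, hU0]
  rw [mass, e, map_add, map_add, map_smul, map_smul, map_smul, functionalL_monomial,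
    functionalL_monomial, functionalL_monomial, hU0, hneg, norm_sub_sq (𝕜 := ℂ),
    LinearIsometryEquiv.norm_map, hv, inner_self_eq_norm_sq_to_K, hv]
  have hre : (⟪v, U q v⟫_ℂ).re = (⟪U q v, v⟫_ℂ).re := by
    rw [← inner_conj_symm, Complex.conj_re]
  simp only [smul_eq_mul, Complex.add_re, Complex.mul_re, RCLike.re_to_complex]
  simp [hre]
  ring

end FA.Kazhdan

end
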